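/-
DS programme (S48), brick B8, part 2 (helper54): a subfield of `ℂ` generated by algebraic numbers
on which `Aut ℂ` acts through finitely many restrictions is a number field.
-/
import Mathlib
import Fermat.Agent.DS.Conj.AutExt

set_option autoImplicit false

open Polynomial IntermediateField

namespace Fermat.Agent.DS.Split.Field

open Fermat.Agent.DS.Conj

/-- Two ring automorphisms of `ℂ` agreeing on a set `A` agree on `ℚ(A)`. -/
lemma eq_on_adjoin (A : Set ℂ) (σ σ' : ℂ ≃+* ℂ) (h : ∀ a ∈ A, σ a = σ' a) :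
    ∀ x ∈ IntermediateField.adjoin ℚ A, σ x = σ' x := by
  intro x hx
  induction hx using IntermediateField.adjoin_induction with
  | mem a ha => exact h a ha
  | algebraMap q => simp
  | add x y _ _ hx hy => rw [map_add, map_add, hx, hy]
  | inv x _ hx => rw [map_inv₀, map_inv₀, hx]
  | mul x y _ _ hx hy => rw [map_mul, map_mul, hx, hy]

/-- Number of complex roots of the minimal polynomial over `ℚ`. -/
lemma natDegree_minpoly_le_of_injOn (θ : ℂ) (hθ : IsIntegral ℚ θ) {T : Type*} [Fintype T]
    (F : ℂ → T) (hF : ∀ y y' : ℂ, aeval y (minpoly ℚ θ) = 0 → aeval y' (minpoly ℚ θ) = 0 →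
      F y = F y' → y = y') :
    (minpoly ℚ θ).natDegree ≤ Fintype.card T := by
  classical
  have hsep : (minpoly ℚ θ).Separable := (minpoly.irreducible hθ).separable
  have hsplit : ((minpoly ℚ θ).map (algebraMap ℚ ℂ)).Splits := IsAlgClosed.splits _
  have hnodup : ((minpoly ℚ θ).map (algebraMap ℚ ℂ)).roots.Nodup :=
    Polynomial.nodup_roots hsep.map
  have hcard : ((minpoly ℚ θ).map (algebraMap ℚ ℂ)).roots.card = (minpoly ℚ θ).natDegree := by
    rw [← hsplit.natDegree_eq_card_roots, Polynomial.natDegree_map]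
  have hroot : ∀ y ∈ ((minpoly ℚ θ).map (algebraMap ℚ ℂ)).roots.toFinset,
      aeval y (minpoly ℚ θ) = 0 := by
    intro y hy
    rw [Multiset.mem_toFinset, Polynomial.mem_roots (Polynomial.map_ne_zero (minpoly.ne_zero hθ))]
      at hy
    rw [Polynomial.IsRoot, Polynomial.eval_map] at hy
    rw [Polynomial.aeval_def]
    exact hy
  calc (minpoly ℚ θ).natDegree
      = ((minpoly ℚ θ).map (algebraMap ℚ ℂ)).roots.toFinset.card := by
        rw [Multiset.toFinset_card_of_nodup hnodup, hcard]
    _ ≤ (Finset.univ : Finset T).card := by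
        refine Finset.card_le_card_of_injOn F (fun _ _ => Finset.mem_univ _) ?_
        intro y hy y' hy' hyy'
        exact hF y y' (hroot y hy) (hroot y' hy') hyy'
    _ = Fintype.card T := rfl

/-- If `Aut ℂ` acts on the set `A` of algebraic numbers through finitely many restrictions, every
element of `ℚ(A)` has degree at most the number of restrictions. -/
theorem natDegree_minpoly_le (A : Set ℂ)
    (hfin : Set.Finite (Set.range (fun σ : ℂ ≃+* ℂ => fun a : A => σ (a : ℂ))))
    (θ : ℂ) (hθ : θ ∈ IntermediateField.adjoin ℚ A) (hθi : IsIntegral ℚ θ) :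
    (minpoly ℚ θ).natDegree ≤ hfin.toFinset.card := by
  classical
  have : Fintype (Set.range (fun σ : ℂ ≃+* ℂ => fun a : A => σ (a : ℂ))) := hfin.fintype
  -- choose an automorphism for each root
  have hex : ∀ y : ℂ, ∃ σ : ℂ ≃+* ℂ, aeval y (minpoly ℚ θ) = 0 → σ θ = y := by
    intro y
    by_cases hy : aeval y (minpoly ℚ θ) = 0
    · obtain ⟨σ, hσ⟩ := AutExt.exists_ringEquiv_apply_eq θ y hθi hy
      exact ⟨σ, fun _ => hσ⟩
    · exact ⟨RingEquiv.refl ℂ, fun h => absurd h hy⟩
  choose s hs using hex
  let F : ℂ → Set.range (fun σ : ℂ ≃+* ℂ => fun a : A => σ (a : ℂ)) :=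
    fun y => ⟨fun a : A => s y (a : ℂ), ⟨s y, rfl⟩⟩
  have h := natDegree_minpoly_le_of_injOn θ hθi F (by
    intro y y' hy hy' hFF
    have h1 : ∀ a ∈ A, s y a = s y' a := by
      intro a ha
      have := congrArg Subtype.val hFF
      exact congrFun this ⟨a, ha⟩
    have h2 := eq_on_adjoin A (s y) (s y') h1 θ hθ
    rw [hs y hy, hs y' hy'] at h2
    exact h2)
  refine h.trans (le_of_eq ?_)
  rw [← Set.toFinset_card, Set.Finite.toFinset_eq_toFinset]

/-- **Number field from a finite orbit.** -/
theorem finiteDimensional_adjoin (A : Set ℂ) (hA : ∀ a ∈ A, IsIntegral ℚ a)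
    (hfin : Set.Finite (Set.range (fun σ : ℂ ≃+* ℂ => fun a : A => σ (a : ℂ)))) :
    FiniteDimensional ℚ (IntermediateField.adjoin ℚ A) := by
  classical
  have : Algebra.IsAlgebraic ℚ (IntermediateField.adjoin ℚ A) :=
    IntermediateField.isAlgebraic_adjoin hA
  by_contra hnfd
  obtain ⟨L, hL, hlt⟩ :=
    IntermediateField.exists_lt_finrank_of_infinite_dimensional hnfd hfin.toFinset.card
  obtain ⟨α, hα⟩ := Field.exists_primitive_element ℚ L
  have hαi : IsIntegral ℚ α := Algebra.IsIntegral.isIntegral α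
  have h1 : Module.finrank ℚ L = (minpoly ℚ α).natDegree := by
    rw [← IntermediateField.adjoin.finrank hαi, hα]
    exact (IntermediateField.finrank_top').symm
  -- transport the minimal polynomial to `ℂ`
  have h2 : minpoly ℚ α = minpoly ℚ (((α : L) : IntermediateField.adjoin ℚ A) : ℂ) := by
    have e1 : minpoly ℚ ((α : L) : IntermediateField.adjoin ℚ A) = minpoly ℚ α :=
      (minpoly.algebraMap_eq (algebraMap L (IntermediateField.adjoin ℚ A)).injective α)
    have e2 : minpoly ℚ ((((α : L) : IntermediateField.adjoin ℚ A)) : ℂ) =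
        minpoly ℚ ((α : L) : IntermediateField.adjoin ℚ A) :=
      (minpoly.algebraMap_eq (algebraMap (IntermediateField.adjoin ℚ A) ℂ).injective _)
    rw [e2, e1]
  have hθi : IsIntegral ℚ ((((α : L) : IntermediateField.adjoin ℚ A)) : ℂ) :=
    (isIntegral_algebraMap_iff (algebraMap (IntermediateField.adjoin ℚ A) ℂ).injective).mpr
      (Algebra.IsIntegral.isIntegral _)
  have h3 := natDegree_minpoly_le A hfin _ (((α : L) : IntermediateField.adjoin ℚ A)).2 hθi
  rw [h1, h2] at hlt
  omega

end Fermat.Agent.DS.Split.Field
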