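/-
DS programme (S48), brick B8, part 1 (helper54): Schur's theorem.
A nonconstant integer polynomial has a root modulo infinitely many primes:
for every finite set `B` there is a prime `ℓ ∉ B` and an integer `n` with `ℓ ∣ P(n)`.
-/
import Mathlib

set_option autoImplicit false

open Polynomial

namespace Fermat.Agent.DS.Split.Schur

/-- A nonzero integer polynomial has a non-root among the integers. -/
lemma exists_eval_ne_zero {R : ℤ[X]} (hR : R ≠ 0) : ∃ x : ℤ, R.eval x ≠ 0 := by
  by_contra h
  push Not at h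
  have hfin : (R.roots.toFinset : Set ℤ).Finite := Finset.finite_toSet _
  have : (Set.univ : Set ℤ) ⊆ (R.roots.toFinset : Set ℤ) := by
    intro x _
    simp only [Finset.mem_coe, Multiset.mem_toFinset]
    exact (Polynomial.mem_roots hR).mpr (h x)
  exact Set.infinite_univ (hfin.subset this)

/-- **Schur.** -/
theorem exists_prime_dvd_eval (P : ℤ[X]) (hP : 0 < P.natDegree) (B : Finset ℕ) :
    ∃ ℓ : ℕ, ℓ.Prime ∧ ℓ ∉ B ∧ ∃ n : ℤ, (ℓ : ℤ) ∣ P.eval n := by
  classical
  by_cases hc : P.eval 0 = 0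
  · -- every prime divides `P(0) = 0`
    obtain ⟨ℓ, hℓ, hprime⟩ := Nat.exists_infinite_primes (B.sup id + 1)
    refine ⟨ℓ, hprime, fun hmem => ?_, 0, by rw [hc]; exact dvd_zero _⟩
    have : ℓ ≤ B.sup id := Finset.le_sup (f := id) hmem
    omega
  · set c : ℤ := P.eval 0 with hcdef
    -- `M` = product of the primes to avoid
    set M : ℤ := ∏ p ∈ B, ((if p = 0 then 1 else p : ℕ) : ℤ) with hM
    have hM0 : M ≠ 0 := by
      rw [hM]
      refine Finset.prod_ne_zero_iff.mpr fun p _ => ?_
      split_ifs with h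
      · norm_num
      · exact_mod_cast h
    -- `P = C c + X * S`
    obtain ⟨S, hS⟩ : ∃ S : ℤ[X], P = C c + X * S := by
      have h1 : X ∣ P - C (P.coeff 0) := Polynomial.X_dvd_sub_C
      obtain ⟨S, hS⟩ := h1
      refine ⟨S, ?_⟩
      rw [hcdef, ← Polynomial.coeff_zero_eq_eval_zero, ← hS]
      ring
    -- the polynomial `P(c M X)`
    set T : ℤ[X] := P.comp (C (c * M) * X) with hT
    have hcM : c * M ≠ 0 := mul_ne_zero hc hM0
    have hTdeg : T.natDegree = P.natDegree := by
      rw [hT, Polynomial.natDegree_comp, Polynomial.natDegree_C_mul_X _ hcM, mul_one]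
    -- avoid the values `0, c, -c`
    have hne : (T * (T - C c) * (T + C c)) ≠ 0 := by
      have h0 : T ≠ 0 := fun h => by rw [h, natDegree_zero] at hTdeg; omega
      have h1 : T - C c ≠ 0 := fun h => by
        have : T = C c := sub_eq_zero.mp h
        rw [this, natDegree_C] at hTdeg; omega
      have h2 : T + C c ≠ 0 := fun h => by
        have : T = C (-c) := by rw [C_neg]; exact eq_neg_of_add_eq_zero_left h
        rw [this, natDegree_C] at hTdeg; omega
      exact mul_ne_zero (mul_ne_zero h0 h1) h2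
    obtain ⟨x, hx⟩ := exists_eval_ne_zero hne
    simp only [eval_mul, eval_sub, eval_add, eval_C, mul_ne_zero_iff] at hx
    obtain ⟨⟨hx0, hx1⟩, hx2⟩ := hx
    -- value of `T` at `x`
    have hTx : T.eval x = c * (1 + M * x * S.eval (c * M * x)) := by
      rw [hT, eval_comp, eval_mul, eval_C, eval_X]
      conv_lhs => rw [hS]
      rw [eval_add, eval_C, eval_mul, eval_X]
      ring
    set q : ℤ := 1 + M * x * S.eval (c * M * x) with hq
    have hq0 : q ≠ 0 := fun h => hx0 (by rw [hTx, h, mul_zero])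
    have hq1 : q ≠ 1 := fun h => hx1 (by rw [hTx, h, mul_one, sub_self])
    have hq2 : q ≠ -1 := fun h => hx2 (by rw [hTx, h]; ring)
    have hnat : q.natAbs ≠ 1 := by
      intro h
      rcases Int.natAbs_eq q with h' | h'
      · exact hq1 (by rw [h', h]; rfl)
      · exact hq2 (by rw [h', h]; rfl)
    obtain ⟨ℓ, hℓ, hdvd⟩ := Nat.exists_prime_and_dvd hnat
    have hdvdq : (ℓ : ℤ) ∣ q := Int.natCast_dvd.mpr hdvd
    refine ⟨ℓ, hℓ, fun hmem => ?_, c * M * x, ?_⟩
    · -- `ℓ ∣ M` and `ℓ ∣ q = 1 + M * (...)` is impossible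
      have hℓM : (ℓ : ℤ) ∣ M := by
        rw [hM]
        refine Dvd.dvd.trans ?_ (Finset.dvd_prod_of_mem _ hmem)
        rw [if_neg hℓ.ne_zero]
      have h1 : (ℓ : ℤ) ∣ 1 := by
        have h2 : (ℓ : ℤ) ∣ M * x * S.eval (c * M * x) :=
          Dvd.dvd.mul_right (Dvd.dvd.mul_right hℓM _) _
        have h3 : (1 : ℤ) = q - M * x * S.eval (c * M * x) := by rw [hq]; ring
        rw [h3]
        exact dvd_sub hdvdq h2
      have := Int.eq_one_of_dvd_one (by positivity) h1
      have h5 : ℓ = 1 := by exact_mod_cast this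
      exact hℓ.one_lt.ne' h5
    · have : P.eval (c * M * x) = T.eval x := by
        rw [hT, eval_comp, eval_mul, eval_C, eval_X]
      rw [this, hTx]
      exact Dvd.dvd.mul_left hdvdq c

end Fermat.Agent.DS.Split.Schur
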