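/-
DS programme (S48), brick B8, part 3 (helper54): residue maps of degree one.

For a number field `K' ⊆ ℂ` and a finite set `B` of primes there is a prime `ℓ ∉ B` and a maximal
ideal `Q` of `ℤbar = integralClosure ℤ ℂ` above `ℓ` such that every algebraic integer of `K'` is
congruent to a rational integer modulo `Q`.
-/
import Mathlib
import Fermat.Agent.DS.Split.Schur

set_option autoImplicit false

open Polynomial IntermediateField

namespace Fermat.Agent.DS.Split.Residue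

local notation "ℤbar" => integralClosure ℤ ℂ

/-- Step A: an integral primitive element `θ` of `K'` and a nonzero integer `m` with
`m • O_{K'} ⊆ ℤ[θ]` (everything read inside `ℂ`). -/
theorem exists_integral_generator (K' : IntermediateField ℚ ℂ) [FiniteDimensional ℚ K'] :
    ∃ (θ : ℂ) (m : ℤ), IsIntegral ℤ θ ∧ m ≠ 0 ∧
      ∀ x : ℂ, x ∈ K' → IsIntegral ℤ x → (m : ℂ) * x ∈ Algebra.adjoin ℤ ({θ} : Set ℂ) := by
  classical
  obtain ⟨α, hα⟩ := Field.exists_primitive_element ℚ K'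
  have hαalg : IsAlgebraic ℤ α :=
    (IsFractionRing.isAlgebraic_iff ℤ ℚ K').mpr (Algebra.IsAlgebraic.isAlgebraic α)
  obtain ⟨m0, hm0, hθint⟩ := hαalg.exists_integral_multiple
  set θ : K' := m0 • α with hθdef
  have hθQ : IsIntegral ℚ θ := Algebra.IsIntegral.isIntegral θ
  have hm0Q : (m0 : ℚ) ≠ 0 := by exact_mod_cast hm0
  have hθtop : ℚ⟮θ⟯ = ⊤ := by
    rw [eq_top_iff, ← hα, IntermediateField.adjoin_simple_le_iff]
    have h1 : α = (m0 : ℚ)⁻¹ • θ := by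
      rw [hθdef, ← Int.cast_smul_eq_zsmul ℚ m0 α, smul_smul, inv_mul_cancel₀ hm0Q, one_smul]
    rw [h1]
    exact IntermediateField.smul_mem _ (IntermediateField.mem_adjoin_simple_self ℚ θ)
  let Bp : PowerBasis ℚ K' := PowerBasis.ofAdjoinEqTop hθQ
    (Algebra.adjoin_eq_top_of_primitive_element hθQ.isAlgebraic hθtop)
  have hgen : Bp.gen = θ := PowerBasis.ofAdjoinEqTop_gen hθQ _
  have hgenint : IsIntegral ℤ Bp.gen := by rw [hgen]; exact hθint
  have hdint : IsIntegral ℤ (Algebra.discr ℚ Bp.basis) := by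
    refine Algebra.discr_isIntegral ℚ fun i => ?_
    rw [Bp.basis_eq_pow]
    exact hgenint.pow _
  obtain ⟨m, hm⟩ := IsIntegrallyClosed.isIntegral_iff.mp hdint
  have hm0' : m ≠ 0 := by
    intro h
    apply Algebra.discr_not_zero_of_basis ℚ Bp.basis
    rw [← hm, h]
    simp
  refine ⟨(θ : ℂ), m, ?_, hm0', fun x hx hxint => ?_⟩
  · exact (isIntegral_algebraMap_iff (algebraMap K' ℂ).injective).mpr hθint
  · have hzint : IsIntegral ℤ (⟨x, hx⟩ : K') :=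
      (isIntegral_algebraMap_iff (A := K') (B := ℂ) (algebraMap K' ℂ).injective).mp hxint
    have hmem := Algebra.discr_mul_isIntegral_mem_adjoin (K := ℚ) (R := ℤ) (B := Bp) hgenint hzint
    rw [hgen, ← hm] at hmem
    -- transport along `K' → ℂ`
    let ι : K' →ₐ[ℤ] ℂ := (K'.val).restrictScalars ℤ
    have h1 : ι ((algebraMap ℤ ℚ m) • (⟨x, hx⟩ : K')) ∈
        (Algebra.adjoin ℤ ({θ} : Set K')).map ι := Subalgebra.mem_map.mpr ⟨_, hmem, rfl⟩
    rw [AlgHom.map_adjoin, Set.image_singleton] at h1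
    have h2 : ι ((algebraMap ℤ ℚ m) • (⟨x, hx⟩ : K')) = (m : ℂ) * x := by
      change ((((algebraMap ℤ ℚ m) • (⟨x, hx⟩ : K') : K')) : ℂ) = _
      rw [IntermediateField.coe_smul]
      simp [Algebra.smul_def]
    rw [h2] at h1
    exact h1

/-- **B8**: residue maps of degree one. -/
theorem exists_degree_one_residue (K' : IntermediateField ℚ ℂ) [FiniteDimensional ℚ K']
    (B : Finset ℕ) :
    ∃ ℓ : ℕ, ℓ.Prime ∧ ℓ ∉ B ∧ ∃ Q : Ideal ℤbar, Q.IsMaximal ∧ ((ℓ : ℕ) : ℤbar) ∈ Q ∧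
      ∀ x : ℤbar, (x : ℂ) ∈ K' → ∃ j : ℤ, x - (j : ℤbar) ∈ Q := by
  classical
  obtain ⟨θ, m, hθ, hm, hmem⟩ := exists_integral_generator K'
  set P : ℤ[X] := minpoly ℤ θ with hP
  have hPdeg : 0 < P.natDegree := minpoly.natDegree_pos hθ
  obtain ⟨ℓ, hℓ, hℓB, n, hn⟩ :=
    Schur.exists_prime_dvd_eval P hPdeg (B ∪ m.natAbs.primeFactors)
  have hℓB' : ℓ ∉ B := fun h => hℓB (Finset.mem_union_left _ h)
  have hℓm : ¬ (ℓ : ℤ) ∣ m := by
    intro h
    apply hℓB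
    apply Finset.mem_union_right
    rw [Nat.mem_primeFactors]
    exact ⟨hℓ, Int.natCast_dvd.mp h, Int.natAbs_ne_zero.mpr hm⟩
  have : Fact ℓ.Prime := ⟨hℓ⟩
  -- the subring `ℤ[θ]` of `ℤbar`
  let S₀ : Subalgebra ℤ ℂ := Algebra.adjoin ℤ ({θ} : Set ℂ)
  have hS₀le : S₀ ≤ integralClosure ℤ ℂ := by
    apply Algebra.adjoin_le
    intro y hy
    rw [Set.mem_singleton_iff] at hy
    rw [hy]
    exact hθ
  let incl : S₀ →ₐ[ℤ] ℤbar := Subalgebra.inclusion hS₀le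
  let _ : Algebra S₀ ℤbar := incl.toRingHom.toAlgebra
  have : IsScalarTower ℤ S₀ ℤbar := IsScalarTower.of_algebraMap_eq fun z => by
    change algebraMap ℤ ℤbar z = incl (algebraMap ℤ S₀ z)
    rw [AlgHom.commutes]
  have : Algebra.IsIntegral ℤ ℤbar := inferInstance
  have : Algebra.IsIntegral S₀ ℤbar := Algebra.IsIntegral.tower_top (R := ℤ)
  -- the residue map `ℤ[θ] → ZMod ℓ`, `θ ↦ n`
  have hroot : P.eval₂ (Int.castRingHom (ZMod ℓ)) (n : ZMod ℓ) = 0 := by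
    have : P.eval₂ (Int.castRingHom (ZMod ℓ)) ((Int.castRingHom (ZMod ℓ)) n) =
        Int.castRingHom (ZMod ℓ) (P.eval n) := Polynomial.eval₂_at_apply _ _
    rw [eq_intCast] at this
    rw [this, eq_intCast, ZMod.intCast_zmod_eq_zero_iff_dvd]
    exact hn
  let e : AdjoinRoot P ≃ₐ[ℤ] S₀ := minpoly.equivAdjoin hθ
  let ψ : S₀ →+* ZMod ℓ :=
    (AdjoinRoot.lift (Int.castRingHom (ZMod ℓ)) (n : ZMod ℓ) hroot).comp
      (e.symm : S₀ →+* AdjoinRoot P)
  have hψint : ∀ j : ℤ, ψ (algebraMap ℤ S₀ j) = (j : ZMod ℓ) := by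
    intro j
    change (AdjoinRoot.lift (Int.castRingHom (ZMod ℓ)) (n : ZMod ℓ) hroot)
      (e.symm (algebraMap ℤ S₀ j)) = _
    rw [AlgEquiv.commutes, AdjoinRoot.algebraMap_eq, AdjoinRoot.lift_of]
    simp
  have hψsurj : Function.Surjective ψ := by
    intro c
    obtain ⟨j, rfl⟩ := ZMod.intCast_surjective c
    exact ⟨algebraMap ℤ S₀ j, hψint j⟩
  have : (RingHom.ker ψ).IsMaximal := RingHom.ker_isMaximal_of_surjective ψ hψsurj
  have hinj : Function.Injective (algebraMap S₀ ℤbar) := by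
    intro a b hab
    have : ((incl a : ℤbar) : ℂ) = ((incl b : ℤbar) : ℂ) := congrArg Subtype.val hab
    exact Subtype.ext this
  obtain ⟨Q, hQmax, hQ⟩ := Ideal.exists_ideal_over_maximal_of_isIntegral (S := ℤbar)
    (RingHom.ker ψ) (by
      rw [(RingHom.injective_iff_ker_eq_bot _).mp hinj]
      exact bot_le)
  have hker : ∀ y : S₀, ψ y = 0 → algebraMap S₀ ℤbar y ∈ Q := by
    intro y hy
    have : y ∈ Q.comap (algebraMap S₀ ℤbar) := by rw [hQ]; exact hy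
    exact this
  -- every element of `ℤ[θ]` is congruent to an integer
  have hS₀ : ∀ y : S₀, ∃ j : ℤ, algebraMap S₀ ℤbar y - (j : ℤbar) ∈ Q := by
    intro y
    obtain ⟨j, hj⟩ := ZMod.intCast_surjective (ψ y)
    refine ⟨j, ?_⟩
    have h1 : ψ (y - algebraMap ℤ S₀ j) = 0 := by rw [map_sub, hψint, hj, sub_self]
    have h2 := hker _ h1
    rw [map_sub] at h2
    have h3 : algebraMap S₀ ℤbar (algebraMap ℤ S₀ j) = (j : ℤbar) := by
      rw [← IsScalarTower.algebraMap_apply ℤ S₀ ℤbar]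
      simp
    rw [h3] at h2
    exact h2
  have hℓQ : ((ℓ : ℕ) : ℤbar) ∈ Q := by
    have h1 : ψ (algebraMap ℤ S₀ (ℓ : ℤ)) = 0 := by
      rw [hψint]
      simp
    have h2 := hker _ h1
    have h3 : algebraMap S₀ ℤbar (algebraMap ℤ S₀ (ℓ : ℤ)) = ((ℓ : ℕ) : ℤbar) := by
      rw [← IsScalarTower.algebraMap_apply ℤ S₀ ℤbar]
      simp
    rw [h3] at h2
    exact h2
  refine ⟨ℓ, hℓ, hℓB', Q, hQmax, hℓQ, fun x hx => ?_⟩
  -- `m x ∈ ℤ[θ]`
  have hmx : (m : ℂ) * (x : ℂ) ∈ S₀ := hmem (x : ℂ) hx x.2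
  obtain ⟨j, hj⟩ := hS₀ ⟨(m : ℂ) * (x : ℂ), hmx⟩
  have hval : algebraMap S₀ ℤbar ⟨(m : ℂ) * (x : ℂ), hmx⟩ = (m : ℤbar) * x := by
    apply Subtype.ext
    change (m : ℂ) * (x : ℂ) = (((m : ℤbar) * x : ℤbar) : ℂ)
    simp
  rw [hval] at hj
  -- Bezout
  have hcop : IsCoprime m (ℓ : ℤ) := by
    rw [Int.isCoprime_iff_gcd_eq_one]
    have : Nat.Coprime m.natAbs ℓ := by
      rw [Nat.coprime_comm]
      exact (Nat.Prime.coprime_iff_not_dvd hℓ).mpr fun h => hℓm (Int.natCast_dvd.mpr h)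
    simpa [Int.gcd] using this
  obtain ⟨u, v, huv⟩ := hcop
  refine ⟨u * j, ?_⟩
  have hid : x - ((u * j : ℤ) : ℤbar) =
      (u : ℤbar) * ((m : ℤbar) * x - (j : ℤbar)) + (v : ℤbar) * x * ((ℓ : ℕ) : ℤbar) := by
    have h1 : ((u : ℤbar) * (m : ℤbar) + (v : ℤbar) * ((ℓ : ℕ) : ℤbar)) = 1 := by
      have := congrArg (fun z : ℤ => (z : ℤbar)) huv
      simpa using this
    push_cast
    calc x - (u : ℤbar) * (j : ℤbar) = x * 1 - (u : ℤbar) * (j : ℤbar) := by rw [mul_one]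
      _ = x * ((u : ℤbar) * (m : ℤbar) + (v : ℤbar) * ((ℓ : ℕ) : ℤbar)) - (u : ℤbar) * (j : ℤbar) := by
          rw [h1]
      _ = _ := by ring
  rw [hid]
  exact Q.add_mem (Q.mul_mem_left _ hj) (Q.mul_mem_left _ hℓQ)

end Fermat.Agent.DS.Split.Residue
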